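import Fermat.Agent.S16.H667.AlgHecke

/-!
# S16 / WP ALG-pair (helper667), part 4: the perfect pairing `T × L → ℤ`

`L = intLattice p 2`, `T = heckeLatticeAlgebra p ∅`, pairing `(t, f) ↦ a₁(t f)`.

* `Psi p : T →ₗ[ℤ] Module.Dual ℤ L`, injective (`Psi_injective`);
* `Phi p : L →ₗ[ℤ] Module.Dual ℤ T`, bijective (`Phi_injective`, `Phi_surjective`);
* `finrank_lattice_eq` : `rank L = rank T`.
-/

set_option autoImplicit false

noncomputable section

namespace Fermat.Agent.S16.H667

open CuspForm CongruenceSubgroup ModularFormClass ModularCurve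
open Fermat.Agent.S16

variable (p : ℕ) [Fact p.Prime]

/-- The pairing as a map `T → Dual L`. -/
def Psi : ↥(heckeLatticeAlgebra p ∅) →ₗ[ℤ] Module.Dual ℤ ↥(intLattice p 2) :=
  ((heckeLatticeAlgebra p ∅).val.toLinearMap).compr₂ (intCoeff p 1)

/-- The pairing as a map `L → Dual T`. -/
def Phi : ↥(intLattice p 2) →ₗ[ℤ] Module.Dual ℤ ↥(heckeLatticeAlgebra p ∅) :=
  (Psi p).flip

theorem Psi_apply (t : ↥(heckeLatticeAlgebra p ∅)) (f : ↥(intLattice p 2)) :
    Psi p t f = intCoeff p 1 (t.1 f) := rfl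

theorem Phi_apply (t : ↥(heckeLatticeAlgebra p ∅)) (f : ↥(intLattice p 2)) :
    Phi p f t = intCoeff p 1 (t.1 f) := rfl

theorem hecke_comm_apply (s t : ↥(heckeLatticeAlgebra p ∅)) (f : ↥(intLattice p 2)) :
    s.1 (t.1 f) = t.1 (s.1 f) := by
  have h : (s * t).1 f = (t * s).1 f := by rw [mul_comm]
  exact h

theorem Phi_injective : Function.Injective (Phi p) := by
  rw [← LinearMap.ker_eq_bot, LinearMap.ker_eq_bot']
  intro f hf
  apply eq_zero_of_intCoeff
  intro k hk
  obtain ⟨P, -, hP⟩ := exists_Pk p k hk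
  rw [← hP f, ← Phi_apply, hf]
  rfl

theorem Psi_injective : Function.Injective (Psi p) := by
  rw [← LinearMap.ker_eq_bot, LinearMap.ker_eq_bot']
  intro t ht
  apply Subtype.ext
  apply LinearMap.ext
  intro f
  change t.1 f = 0
  apply eq_zero_of_intCoeff
  intro k hk
  obtain ⟨P, -, hP⟩ := exists_Pk p k hk
  rw [← hP (t.1 f), hecke_comm_apply, ← Psi_apply, ht]
  rfl

theorem finrank_lattice_eq :
    Module.finrank ℤ ↥(intLattice p 2) = Module.finrank ℤ ↥(heckeLatticeAlgebra p ∅) := by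
  have := intLattice.moduleFinite p
  have := intLattice.moduleFree p
  apply le_antisymm
  · have h := LinearMap.finrank_le_finrank_of_injective (Phi_injective p)
    rwa [Module.finrank_linearMap_self] at h
  · have h := LinearMap.finrank_le_finrank_of_injective (Psi_injective p)
    rwa [Module.finrank_linearMap_self] at h

/-- every functional on `T` has a nonzero multiple in the image of `Phi` -/
theorem exists_nsmul_mem_range_Phi (ξ : Module.Dual ℤ ↥(heckeLatticeAlgebra p ∅)) :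
    ∃ M : ℕ, M ≠ 0 ∧ (M : ℤ) • ξ ∈ LinearMap.range (Phi p) := by
  have := intLattice.moduleFinite p
  have := intLattice.moduleFree p
  have hrk : Module.finrank ℤ ↥(LinearMap.range (Phi p)) =
      Module.finrank ℤ (Module.Dual ℤ ↥(heckeLatticeAlgebra p ∅)) := by
    rw [LinearMap.finrank_range_of_inj (Phi_injective p), Module.finrank_linearMap_self,
      finrank_lattice_eq]
  have : Finite (Module.Dual ℤ ↥(heckeLatticeAlgebra p ∅) ⧸ LinearMap.range (Phi p)) :=
    Submodule.finiteQuotientOfFreeOfRankEq _ hrk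
  refine ⟨Nat.card (Module.Dual ℤ ↥(heckeLatticeAlgebra p ∅) ⧸ LinearMap.range (Phi p)),
    Nat.card_pos.ne', ?_⟩
  rw [← Submodule.Quotient.mk_eq_zero, Submodule.Quotient.mk_smul, natCast_zsmul]
  exact card_nsmul_eq_zero'

theorem Phi_surjective : Function.Surjective (Phi p) := by
  intro ξ
  obtain ⟨M, hM, f, hf⟩ := exists_nsmul_mem_range_Phi p ξ
  have hM' : (M : ℤ) ≠ 0 := by exact_mod_cast hM
  have hdiv : ∀ n : ℕ, 1 ≤ n → (M : ℤ) ∣ intCoeff p n f := by
    intro k hk
    obtain ⟨P, -, hP⟩ := exists_Pk p k hk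
    rw [← hP f, ← Phi_apply, hf]
    exact ⟨ξ (rho p P), rfl⟩
  obtain ⟨g, rfl⟩ := saturation p (M : ℤ) hM' f hdiv
  refine ⟨g, ?_⟩
  rw [map_smul] at hf
  exact smul_right_injective _ hM' hf

end Fermat.Agent.S16.H667
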