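import Fermat.Agent.S16.Defs

/-!
# S16 / WP ALG (helper667), part 2: Hecke recursions for `σ'(k) = sigmaP p k`

* `sigmaP_one`;
* `sigmaP_mul_self`  : `σ'(k p) = σ'(k)`;
* `sigmaP_mul_prime` : `σ'(k ℓ) + [ℓ ∣ k] ℓ σ'(k/ℓ) = (1 + ℓ) σ'(k)` for a prime `ℓ ≠ p`.
-/

set_option autoImplicit false

namespace Fermat.Agent.S16.H667

open Fermat.Agent.S16

/-- divisors of `k` prime to `p` -/
def divP (p k : ℕ) : Finset ℕ := k.divisors.filter (fun d => ¬ p ∣ d)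

theorem sigmaP_eq_sum (p k : ℕ) : sigmaP p k = ∑ d ∈ divP p k, d := rfl

theorem mem_divP {p k d : ℕ} : d ∈ divP p k ↔ d ∣ k ∧ k ≠ 0 ∧ ¬ p ∣ d := by
  simp [divP, Nat.mem_divisors, and_assoc]

theorem sigmaP_one (p : ℕ) (hp : p.Prime) : sigmaP p 1 = 1 := by
  have : divP p 1 = {1} := by
    ext d
    simp only [mem_divP, Finset.mem_singleton, Nat.dvd_one]
    constructor
    · rintro ⟨h, -, -⟩; exact h
    · rintro rfl
      exact ⟨rfl, one_ne_zero, hp.one_lt.ne' ∘ Nat.dvd_one.1⟩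
  rw [sigmaP_eq_sum, this, Finset.sum_singleton]

theorem sigmaP_mul_self (p k : ℕ) (hp : p.Prime) (hk : 1 ≤ k) :
    sigmaP p (k * p) = sigmaP p k := by
  have : divP p (k * p) = divP p k := by
    ext d
    simp only [mem_divP]
    constructor
    · rintro ⟨h1, -, h3⟩
      refine ⟨?_, by omega, h3⟩
      exact (Nat.Coprime.dvd_of_dvd_mul_right ((Nat.Prime.coprime_iff_not_dvd hp).2 h3).symm h1)
    · rintro ⟨h1, -, h3⟩
      exact ⟨Dvd.dvd.mul_right h1 p, Nat.mul_ne_zero (by omega) hp.ne_zero, h3⟩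
  rw [sigmaP_eq_sum, sigmaP_eq_sum, this]

theorem divP_mul_prime (p ℓ k : ℕ) (hp : p.Prime) (hℓ : ℓ.Prime) (hne : ℓ ≠ p) (hk : 1 ≤ k) :
    divP p (k * ℓ) = divP p k ∪ (divP p k).image (· * ℓ) := by
  ext d
  simp only [Finset.mem_union, Finset.mem_image, mem_divP]
  constructor
  · rintro ⟨h1, -, h3⟩
    by_cases hd : ℓ ∣ d
    · right
      obtain ⟨d', rfl⟩ := hd
      refine ⟨d', ⟨?_, by omega, fun h => h3 (Dvd.dvd.mul_left h ℓ)⟩, mul_comm _ _⟩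
      rw [mul_comm k ℓ] at h1
      exact (Nat.mul_dvd_mul_iff_left hℓ.pos).1 h1
    · left
      refine ⟨?_, by omega, h3⟩
      exact (Nat.Coprime.dvd_of_dvd_mul_right ((Nat.Prime.coprime_iff_not_dvd hℓ).2 hd).symm h1)
  · rintro (⟨h1, -, h3⟩ | ⟨d', ⟨h1, -, h3⟩, rfl⟩)
    · exact ⟨Dvd.dvd.mul_right h1 ℓ, Nat.mul_ne_zero (by omega) hℓ.ne_zero, h3⟩
    · refine ⟨Nat.mul_dvd_mul_right h1 ℓ, Nat.mul_ne_zero (by omega) hℓ.ne_zero, ?_⟩
      intro h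
      rcases (Nat.Prime.dvd_mul hp).1 h with h | h
      · exact h3 h
      · exact hne ((Nat.prime_dvd_prime_iff_eq hp hℓ).1 h).symm

theorem divP_inter_prime (p ℓ k : ℕ) (hp : p.Prime) (hℓ : ℓ.Prime) (hne : ℓ ≠ p) (hk : 1 ≤ k) :
    divP p k ∩ (divP p k).image (· * ℓ) =
      if ℓ ∣ k then (divP p (k / ℓ)).image (· * ℓ) else ∅ := by
  split_ifs with hdvd
  · obtain ⟨k', rfl⟩ := hdvd
    have hk' : 1 ≤ k' := by
      rcases Nat.eq_zero_or_pos k' with h | h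
      · subst h; simp at hk
      · exact h
    rw [Nat.mul_div_cancel_left _ hℓ.pos]
    ext d
    simp only [Finset.mem_inter, Finset.mem_image, mem_divP]
    constructor
    · rintro ⟨⟨h1, -, h3⟩, ⟨d', ⟨h1', -, h3'⟩, rfl⟩⟩
      refine ⟨d', ⟨?_, by omega, h3'⟩, rfl⟩
      rw [mul_comm d' ℓ] at h1
      exact (Nat.mul_dvd_mul_iff_left hℓ.pos).1 h1
    · rintro ⟨d', ⟨h1, -, h3⟩, rfl⟩
      have hne0 : ℓ * k' ≠ 0 := Nat.mul_ne_zero hℓ.ne_zero (by omega)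
      refine ⟨⟨?_, hne0, ?_⟩, ⟨d', ⟨Dvd.dvd.mul_left h1 ℓ, hne0, h3⟩, rfl⟩⟩
      · rw [mul_comm d' ℓ]
        exact Nat.mul_dvd_mul_left ℓ h1
      · intro h
        rcases (Nat.Prime.dvd_mul hp).1 h with h | h
        · exact h3 h
        · exact hne ((Nat.prime_dvd_prime_iff_eq hp hℓ).1 h).symm
  · ext d
    simp only [Finset.mem_inter, Finset.mem_image, mem_divP, Finset.notMem_empty, iff_false]
    rintro ⟨⟨h1, -, -⟩, ⟨d', -, rfl⟩⟩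
    exact hdvd (Dvd.dvd.trans (Dvd.intro_left d' rfl) h1)

theorem sum_image_mul (s : Finset ℕ) (ℓ : ℕ) (hℓ : 0 < ℓ) :
    ∑ d ∈ s.image (· * ℓ), d = ℓ * ∑ d ∈ s, d := by
  rw [Finset.sum_image (fun a _ b _ h => Nat.eq_of_mul_eq_mul_right hℓ h), Finset.mul_sum]
  exact Finset.sum_congr rfl fun d _ => mul_comm d ℓ

/-- `σ'(k ℓ) + [ℓ ∣ k] ℓ σ'(k/ℓ) = (1 + ℓ) σ'(k)` for a prime `ℓ ≠ p`. -/
theorem sigmaP_mul_prime (p ℓ k : ℕ) (hp : p.Prime) (hℓ : ℓ.Prime) (hne : ℓ ≠ p) (hk : 1 ≤ k) :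
    sigmaP p (k * ℓ) + (if ℓ ∣ k then ℓ * sigmaP p (k / ℓ) else 0) = (1 + ℓ) * sigmaP p k := by
  have h := Finset.sum_union_inter (s₁ := divP p k) (s₂ := (divP p k).image (· * ℓ))
    (f := fun d : ℕ => d)
  rw [← divP_mul_prime p ℓ k hp hℓ hne hk, divP_inter_prime p ℓ k hp hℓ hne hk,
    sum_image_mul _ ℓ hℓ.pos] at h
  simp only [sigmaP_eq_sum]
  split_ifs at h ⊢ with hdvd
  · rw [sum_image_mul _ ℓ hℓ.pos] at h
    rw [h]; ring
  · rw [Finset.sum_empty] at h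
    rw [h]; ring

end Fermat.Agent.S16.H667
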