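import Fermat.Agent.S16.H667.AlgLat
import Fermat.Agent.S16.H667.AlgSigma

/-!
# S16 / WP ALG (helper667), part 3: the Hecke action on the lattice and the elements `t_k`

* `rho N : HeckeAlg →+* heckeLatticeAlgebra N ∅` (the map of the frozen statement), surjective;
* `intCoeff_rho_X_of_not_dvd`, `intCoeff_rho_X_of_dvd` : `q`-coefficients of `T_ℓ f`, `U_q f`;
* `exists_Pk` : for `k ≥ 1` there is `P_k` with Eisenstein eigenvalue `σ'(k)` and
  `a₁(P_k f) = a_k(f)` on the lattice of level `p`.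
-/

set_option autoImplicit false

noncomputable section

namespace Fermat.Agent.S16.H667

open CuspForm CongruenceSubgroup ModularFormClass ModularCurve
open Fermat.Agent.S16

variable (N : ℕ) [NeZero N]

/-- The ring homomorphism of the frozen statement S16. -/
def rho : HeckeAlg →+* ↥(heckeLatticeAlgebra N ∅) :=
  (latticeRestrictHom N ∅).toRingHom.comp (heckeEvalForms N 2)

theorem rho_def : rho N = (latticeRestrictHom N ∅).toRingHom.comp (heckeEvalForms N 2) := rfl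

theorem heckeEvalForms_surjective : Function.Surjective (heckeEvalForms N 2) := by
  rintro ⟨x, hx⟩
  refine Algebra.adjoin_induction
    (p := fun x hx => ∃ P, heckeEvalForms N 2 P = ⟨x, hx⟩) ?_ ?_ ?_ ?_ hx
  · intro x hx
    rcases hx with ⟨ℓ, hℓ, hℓN, -, rfl⟩ | ⟨q, hqN, hq, -, rfl⟩
    · refine ⟨heckeGen ⟨ℓ, hℓ⟩, ?_⟩
      rw [heckeEvalForms_heckeGen_of_not_dvd (ℓ := ⟨ℓ, hℓ⟩) hℓN]
      rfl
    · refine ⟨heckeGen ⟨q, hq⟩, ?_⟩
      rw [heckeEvalForms_heckeGen_of_dvd (q := ⟨q, hq⟩) hqN]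
      rfl
  · intro r
    exact ⟨MvPolynomial.C r, by rw [heckeEvalForms_C]; rfl⟩
  · rintro x y hx hy ⟨P, hP⟩ ⟨Q, hQ⟩
    exact ⟨P + Q, by rw [map_add, hP, hQ]; rfl⟩
  · rintro x y hx hy ⟨P, hP⟩ ⟨Q, hQ⟩
    exact ⟨P * Q, by rw [map_mul, hP, hQ]; rfl⟩

theorem rho_surjective : Function.Surjective (rho N) := by
  intro t
  obtain ⟨s, rfl⟩ := latticeRestrictHom_surjective N ∅ t
  obtain ⟨P, rfl⟩ := heckeEvalForms_surjective N s
  exact ⟨P, rfl⟩

theorem coe_rho_apply (P : HeckeAlg) (f : ↥(intLattice N 2)) :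
    (((rho N P).1 f : ↥(intLattice N 2)) : CuspForm (Gamma0 N) 2) =
      (heckeEvalForms N 2 P).1 (f : CuspForm (Gamma0 N) 2) := rfl

theorem rho_mul_apply (P Q : HeckeAlg) (f : ↥(intLattice N 2)) :
    (rho N (P * Q)).1 f = (rho N P).1 ((rho N Q).1 f) := by
  rw [map_mul]; rfl

theorem rho_mul_apply' (P Q : HeckeAlg) (f : ↥(intLattice N 2)) :
    (rho N (P * Q)).1 f = (rho N Q).1 ((rho N P).1 f) := by
  rw [mul_comm, rho_mul_apply]

theorem rho_add_apply (P Q : HeckeAlg) (f : ↥(intLattice N 2)) :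
    (rho N (P + Q)).1 f = (rho N P).1 f + (rho N Q).1 f := by
  rw [map_add]; rfl

theorem rho_sub_apply (P Q : HeckeAlg) (f : ↥(intLattice N 2)) :
    (rho N (P - Q)).1 f = (rho N P).1 f - (rho N Q).1 f := by
  rw [map_sub]; rfl

theorem rho_one_apply (f : ↥(intLattice N 2)) : (rho N 1).1 f = f := by
  rw [map_one]; rfl

theorem rho_zero_apply (f : ↥(intLattice N 2)) : (rho N 0).1 f = 0 := by
  rw [map_zero]; rfl

theorem rho_C_apply (a : ℤ) (f : ↥(intLattice N 2)) :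
    (rho N (MvPolynomial.C a)).1 f = a • f := by
  have h : rho N (MvPolynomial.C a) = algebraMap ℤ _ a := by
    rw [rho_def, RingHom.comp_apply, heckeEvalForms_C]
    exact (latticeRestrictHom N ∅).commutes a
  rw [h]
  rfl

theorem intCoeff_rho_X_of_not_dvd (ℓ : Nat.Primes) (h : ¬ (ℓ : ℕ) ∣ N) (n : ℕ)
    (f : ↥(intLattice N 2)) :
    intCoeff N n ((rho N (heckeGen ℓ)).1 f) =
      intCoeff N (n * ℓ) f + if (ℓ : ℕ) ∣ n then (ℓ : ℤ) * intCoeff N (n / ℓ) f else 0 := by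
  rw [intCoeff_eq_iff]
  have h1 : (((rho N (heckeGen ℓ)).1 f : ↥(intLattice N 2)) : CuspForm (Gamma0 N) 2) =
      heckeTLin 2 ℓ.2 h (f : CuspForm (Gamma0 N) 2) := by
    rw [coe_rho_apply, heckeEvalForms_heckeGen_of_not_dvd h]
    rfl
  rw [h1]
  have h2 := LinearMap.congr_fun (Fermat.Agent.S22T.H857.coeffFun_comp_heckeTLin (N := N) (k := 2)
    (by norm_num) ℓ.2 h n) (f : CuspForm (Gamma0 N) 2)
  simp only [LinearMap.comp_apply, Fermat.Agent.S22T.H857.coeffFun_apply,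
    LinearMap.add_apply] at h2
  rw [h2]
  split_ifs with hd
  · simp [intCoeff_spec]
  · simp [intCoeff_spec]

theorem intCoeff_rho_X_of_dvd (ℓ : Nat.Primes) (h : (ℓ : ℕ) ∣ N) (n : ℕ)
    (f : ↥(intLattice N 2)) :
    intCoeff N n ((rho N (heckeGen ℓ)).1 f) = intCoeff N (n * ℓ) f := by
  rw [intCoeff_eq_iff]
  have h1 : (((rho N (heckeGen ℓ)).1 f : ↥(intLattice N 2)) : CuspForm (Gamma0 N) 2) =
      heckeULin 2 h (f : CuspForm (Gamma0 N) 2) := by
    rw [coe_rho_apply, heckeEvalForms_heckeGen_of_dvd h]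
    rfl
  rw [h1]
  have h2 := LinearMap.congr_fun (Fermat.Agent.S22T.H857.coeffFun_comp_heckeULin (N := N) (k := 2)
    ℓ.2 h n) (f : CuspForm (Gamma0 N) 2)
  simp only [LinearMap.comp_apply, Fermat.Agent.S22T.H857.coeffFun_apply] at h2
  rw [h2, intCoeff_spec]

section Prime

variable (p : ℕ)

/-- evaluation at the Eisenstein eigensystem -/
def ev : HeckeAlg →ₐ[ℤ] ℤ := MvPolynomial.aeval (eisensteinSystem p)

theorem ev_def : ev p = MvPolynomial.aeval (eisensteinSystem p) := rfl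

theorem ev_C (a : ℤ) : ev p (MvPolynomial.C a) = a := by
  rw [ev_def, MvPolynomial.aeval_C]; rfl

theorem ev_X_of_dvd (ℓ : Nat.Primes) (h : (ℓ : ℕ) ∣ p) : ev p (heckeGen ℓ) = 1 := by
  rw [ev_def, aeval_heckeGen, eisensteinSystem_of_dvd h]

theorem ev_X_of_not_dvd (ℓ : Nat.Primes) (h : ¬ (ℓ : ℕ) ∣ p) :
    ev p (heckeGen ℓ) = 1 + ((ℓ : ℕ) : ℤ) := by
  rw [ev_def, aeval_heckeGen, eisensteinSystem_of_not_dvd h]

theorem mem_eisensteinIdeal_iff (P : HeckeAlg) : P ∈ eisensteinIdeal p ↔ ev p P = 0 :=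
  mem_eigenIdeal_iff _ _

theorem ev_surjective : Function.Surjective (ev p) := fun a => ⟨MvPolynomial.C a, ev_C p a⟩

variable [Fact p.Prime]

/-- The elements `t_k` (as polynomials `P_k` in the Hecke generators): `a₁(P_k f) = a_k(f)`, and
the Eisenstein eigenvalue of `P_k` is `σ'(k)`. -/
theorem exists_Pk (k : ℕ) (hk : 1 ≤ k) :
    ∃ P : HeckeAlg, ev p P = (sigmaP p k : ℤ) ∧
      ∀ f : ↥(intLattice p 2), intCoeff p 1 ((rho p P).1 f) = intCoeff p k f := by
  have hp : p.Prime := Fact.out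
  induction k using Nat.strong_induction_on with
  | _ k ih =>
    rcases Nat.eq_or_lt_of_le hk with h1 | h1
    · subst h1
      refine ⟨1, ?_, fun f => ?_⟩
      · rw [map_one, sigmaP_one p hp]; rfl
      · rw [rho_one_apply]
    · have hℓp : k.minFac.Prime := Nat.minFac_prime (by omega)
      obtain ⟨k', hk'⟩ : k.minFac ∣ k := Nat.minFac_dvd k
      set ℓ : ℕ := k.minFac with hℓ
      have hk'1 : 1 ≤ k' := by
        rcases Nat.eq_zero_or_pos k' with h | h
        · subst h; omega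
        · exact h
      have hk'lt : k' < k := by
        rw [hk']
        have := hℓp.two_le
        nlinarith
      have hkk : k = k' * ℓ := by rw [hk', mul_comm]
      obtain ⟨P', hP'ev, hP'⟩ := ih k' hk'lt hk'1
      by_cases hdvd : ℓ ∣ p
      · have hℓeq : ℓ = p := (Nat.prime_dvd_prime_iff_eq hℓp hp).1 hdvd
        refine ⟨heckeGen ⟨ℓ, hℓp⟩ * P', ?_, fun f => ?_⟩
        · rw [map_mul, ev_X_of_dvd p ⟨ℓ, hℓp⟩ hdvd, one_mul, hP'ev, hkk, hℓeq,
            sigmaP_mul_self p k' hp hk'1]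
        · rw [rho_mul_apply', hP', intCoeff_rho_X_of_dvd p ⟨ℓ, hℓp⟩ hdvd, hkk]
      · have hne : ℓ ≠ p := fun h => hdvd (h ▸ dvd_rfl)
        have hσ := sigmaP_mul_prime p ℓ k' hp hℓp hne hk'1
        by_cases hd2 : ℓ ∣ k'
        · have hk''1 : 1 ≤ k' / ℓ := Nat.div_pos (Nat.le_of_dvd hk'1 hd2) hℓp.pos
          have hk''lt : k' / ℓ < k := lt_of_le_of_lt (Nat.div_le_self _ _) hk'lt
          obtain ⟨P'', hP''ev, hP''⟩ := ih (k' / ℓ) hk''lt hk''1
          refine ⟨heckeGen ⟨ℓ, hℓp⟩ * P' - MvPolynomial.C (ℓ : ℤ) * P'', ?_, fun f => ?_⟩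
          · rw [map_sub, map_mul, map_mul, ev_X_of_not_dvd p ⟨ℓ, hℓp⟩ hdvd, hP'ev, hP''ev, ev_C,
              hkk]
            rw [if_pos hd2] at hσ
            have : ((sigmaP p (k' * ℓ) : ℕ) : ℤ) + (ℓ : ℤ) * (sigmaP p (k' / ℓ) : ℤ) =
                (1 + (ℓ : ℤ)) * (sigmaP p k' : ℤ) := by exact_mod_cast hσ
            simp only []
            linarith
          · rw [rho_sub_apply, map_sub, rho_mul_apply', hP', rho_mul_apply, rho_C_apply, map_smul,
              hP'', intCoeff_rho_X_of_not_dvd p ⟨ℓ, hℓp⟩ hdvd, hkk]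
            simp only [if_pos hd2, smul_eq_mul]
            ring
        · refine ⟨heckeGen ⟨ℓ, hℓp⟩ * P', ?_, fun f => ?_⟩
          · rw [map_mul, ev_X_of_not_dvd p ⟨ℓ, hℓp⟩ hdvd, hP'ev, hkk]
            rw [if_neg hd2] at hσ
            have : ((sigmaP p (k' * ℓ) : ℕ) : ℤ) = (1 + (ℓ : ℤ)) * (sigmaP p k' : ℤ) := by
              exact_mod_cast hσ
            simp only []
            linarith
          · rw [rho_mul_apply', hP', intCoeff_rho_X_of_not_dvd p ⟨ℓ, hℓp⟩ hdvd, hkk]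
            simp only [if_neg hd2, add_zero]

end Prime

end Fermat.Agent.S16.H667
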