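import Fermat.Statements.S16
import Fermat.Agent.S22T.H857.Endgame

/-!
# S16 / WP ALG (helper667), part 1: integral coefficient functionals on `intLattice N 2`

* `intCoeff N n : ↥(intLattice N 2) →ₗ[ℤ] ℤ`, the `n`-th `q`-coefficient as an integer;
* `intCoeff_zero`, `ext_intCoeff` (a lattice element is determined by its coefficients `n ≥ 1`);
* `saturation` : if all coefficients of `f` are divisible by `M ≠ 0` then `f = M • g`, `g` in the
  lattice.
-/

set_option autoImplicit false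

noncomputable section

namespace Fermat.Agent.S16.H667

open CuspForm CongruenceSubgroup ModularFormClass

variable (N : ℕ)

/-- `q`-coefficients of elements of the lattice are integers. -/
theorem exists_int_qCoeff {k : ℤ} {f : CuspForm (Gamma0 N) k} (hf : f ∈ intLattice N k) (n : ℕ) :
    ∃ m : ℤ, qCoeff ⇑f n = (m : ℂ) := by
  induction hf using Submodule.span_induction with
  | mem x hx => exact hx n
  | zero =>
    refine ⟨0, ?_⟩
    have := (Fermat.Agent.S22T.H857.coeffFun N k n).map_zero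
    simpa using this
  | add x y _ _ hx hy =>
    obtain ⟨a, ha⟩ := hx
    obtain ⟨b, hb⟩ := hy
    refine ⟨a + b, ?_⟩
    rw [Fermat.Agent.S22T.H857.qCoeff_add', ha, hb]
    push_cast
    rfl
  | smul c x _ hx =>
    obtain ⟨a, ha⟩ := hx
    refine ⟨c * a, ?_⟩
    have h1 : c • x = (c : ℂ) • x := by
      rw [Int.cast_smul_eq_zsmul]
    rw [h1, Fermat.Agent.S22T.H857.qCoeff_smul', ha]
    push_cast
    rfl

/-- the complex valued coefficient functional on the lattice, `ℤ`-linear -/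
def cCoeff (n : ℕ) : ↥(intLattice N 2) →ₗ[ℤ] ℂ :=
  ((Fermat.Agent.S22T.H857.coeffFun N 2 n).restrictScalars ℤ).comp (intLattice N 2).subtype

theorem cCoeff_apply (n : ℕ) (f : ↥(intLattice N 2)) :
    cCoeff N n f = qCoeff ⇑(f : CuspForm (Gamma0 N) 2) n := rfl

theorem cCoeff_mem_range (n : ℕ) (f : ↥(intLattice N 2)) :
    cCoeff N n f ∈ LinearMap.range (Algebra.linearMap ℤ ℂ) := by
  obtain ⟨m, hm⟩ := exists_int_qCoeff N f.2 n
  exact ⟨m, by rw [cCoeff_apply, hm]; simp⟩

theorem intCast_injective_linearMap : Function.Injective (Algebra.linearMap ℤ ℂ) := by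
  intro a b h
  have : ((a : ℤ) : ℂ) = (b : ℂ) := by simpa using h
  exact_mod_cast this

/-- The `n`-th `q`-expansion coefficient as a `ℤ`-linear functional `intLattice N 2 → ℤ`. -/
def intCoeff (n : ℕ) : ↥(intLattice N 2) →ₗ[ℤ] ℤ :=
  (LinearEquiv.ofInjective (Algebra.linearMap ℤ ℂ) intCast_injective_linearMap).symm.toLinearMap.comp
    (LinearMap.codRestrict _ (cCoeff N n) (cCoeff_mem_range N n))

theorem intCoeff_spec (n : ℕ) (f : ↥(intLattice N 2)) :
    ((intCoeff N n f : ℤ) : ℂ) = qCoeff ⇑(f : CuspForm (Gamma0 N) 2) n := by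
  have h := LinearEquiv.apply_symm_apply
    (LinearEquiv.ofInjective (Algebra.linearMap ℤ ℂ) intCast_injective_linearMap)
    (LinearMap.codRestrict _ (cCoeff N n) (cCoeff_mem_range N n) f)
  have h2 : (Algebra.linearMap ℤ ℂ) (intCoeff N n f) = cCoeff N n f := congrArg Subtype.val h
  rw [cCoeff_apply] at h2
  rw [← h2]
  simp

theorem intCoeff_eq_iff (n : ℕ) (f : ↥(intLattice N 2)) (m : ℤ) :
    intCoeff N n f = m ↔ qCoeff ⇑(f : CuspForm (Gamma0 N) 2) n = (m : ℂ) := by
  rw [← intCoeff_spec]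
  exact_mod_cast Iff.rfl

theorem intCoeff_zero (f : ↥(intLattice N 2)) : intCoeff N 0 f = 0 := by
  rw [intCoeff_eq_iff, Int.cast_zero]
  exact CuspFormClass.qExpansion_coeff_zero (f : CuspForm (Gamma0 N) 2) one_pos
    (Fermat.Agent.S22T.H857.one_mem_sp N)

theorem eq_zero_of_intCoeff (f : ↥(intLattice N 2)) (h : ∀ n : ℕ, 1 ≤ n → intCoeff N n f = 0) :
    f = 0 := by
  apply Subtype.ext
  apply Fermat.Agent.S22T.H857.eq_zero_of_qCoeff
  intro n
  rw [← intCoeff_spec]
  rcases Nat.eq_zero_or_pos n with rfl | hn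
  · rw [intCoeff_zero]; simp
  · rw [h n hn]; simp

theorem ext_intCoeff (f g : ↥(intLattice N 2))
    (h : ∀ n : ℕ, 1 ≤ n → intCoeff N n f = intCoeff N n g) : f = g := by
  rw [← sub_eq_zero]
  apply eq_zero_of_intCoeff
  intro n hn
  rw [map_sub, h n hn, sub_self]

/-- **Saturation**: the lattice is saturated with respect to the coefficient functionals. -/
theorem saturation (M : ℤ) (hM : M ≠ 0) (f : ↥(intLattice N 2))
    (h : ∀ n : ℕ, 1 ≤ n → M ∣ intCoeff N n f) : ∃ g : ↥(intLattice N 2), f = M • g := by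
  have hMC : (M : ℂ) ≠ 0 := by exact_mod_cast hM
  set g₀ : CuspForm (Gamma0 N) 2 := ((M : ℂ)⁻¹) • (f : CuspForm (Gamma0 N) 2) with hg₀
  have hg : g₀ ∈ intLattice N 2 := by
    refine Submodule.subset_span ?_
    intro n
    rcases Nat.eq_zero_or_pos n with rfl | hn
    · refine ⟨0, ?_⟩
      rw [Int.cast_zero]
      exact CuspFormClass.qExpansion_coeff_zero g₀ one_pos
        (Fermat.Agent.S22T.H857.one_mem_sp N)
    · obtain ⟨b, hb⟩ := h n hn
      refine ⟨b, ?_⟩
      rw [hg₀, Fermat.Agent.S22T.H857.qCoeff_smul', ← intCoeff_spec, hb]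
      push_cast
      field_simp
  refine ⟨⟨g₀, hg⟩, ?_⟩
  apply Subtype.ext
  rw [Submodule.coe_smul]
  change (f : CuspForm (Gamma0 N) 2) = M • g₀
  rw [hg₀, ← Int.cast_smul_eq_zsmul ℂ M, smul_smul, mul_inv_cancel₀ hMC, one_smul]

end Fermat.Agent.S16.H667
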